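import Fermat.Agent.SharpChebotarev.Moment
import Mathlib.RingTheory.IntegralDomain

/-!
# Chebotarev's moment through the characters of an abelian extension

For an abelian `L/K` with group `G`, the indicator of `C` is the combination of the characters `ψ`
with coefficients `(∑_{g ∈ C} ψ g⁻¹) / |G|`. On the Riemann hypothesis for `ζ_L`, if these sums
are at most `Φ` in absolute value for `ψ ≠ 1`, then
`∑_{n ≤ x} Λ_C n (x - n) = σ x² / 2 + O ((σ log (2|d_K|) + Φ / |G| log (2|d_L|)) x^(3/2))`: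
the conductors enter only through the conductor-discriminant formula.
-/

set_option autoImplicit false
set_option linter.style.haveILetI false
set_option linter.unusedSectionVars false

noncomputable section

universe u v

open NumberField IsDedekindDomain Module Finset Complex MeasureTheory Filter
open FA.ArtinHooley (FieldRH derivC derivC_nonneg fieldSize one_le_fieldSize height_le_rpow
  momentSum_eq_lineInt restKer)
open FA.DedekindPIT (momentSum)
open FA.ChebError (indFn artinMangoldt share share_nonneg mangoldtF)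
open FA.EffCheb (charSize one_le_charSize clearedL isCleared_clearedL poleOrd charSize_one)
open FA.DedekindExplicit (rawKer discScale scale_bounds)
open FA.DedekindZF (height)
open FA.ArtinL (artinL artinLog)
open FA.PiltzDivisor (lineInt)
open FA.SharpCheb (pieceLine exists_rawKer_piece exists_rawKer_line criticalPiece_clearedL
  lineSize_charSize)
open scoped Real Classical

namespace FA.LTFifths

section dual

variable {G : Type*} [Group G] [Fintype G]

/-- `∑_{g ∈ C} ψ g⁻¹`. -/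
def dualSum (C : Set G) (ψ : G →* ℂˣ) : ℂ := ∑ g ∈ C.toFinset, (ψ g⁻¹ : ℂ)

/-- Its coefficient. -/
def dualW (C : Set G) (ψ : G →* ℂˣ) : ℂ := (Nat.card G : ℂ)⁻¹ * dualSum C ψ

theorem norm_dualW (C : Set G) (ψ : G →* ℂˣ) :
    ‖dualW C ψ‖ = ‖dualSum C ψ‖ / Nat.card G := by
  rw [dualW, norm_mul, norm_inv, Complex.norm_natCast, inv_mul_eq_div]

theorem dualSum_one (C : Set G) : dualSum C 1 = (Nat.card C : ℂ) := by
  simp only [dualSum, MonoidHom.one_apply, Units.val_one, Finset.sum_const, nsmul_eq_mul, mul_one]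
  rw [Nat.card_coe_set_eq, Set.ncard_eq_toFinset_card']

theorem sum_dual_apply (hcomm : ∀ g h : G, g * h = h * g) [Fintype (G →* ℂˣ)] (g : G) :
    ∑ ψ : G →* ℂˣ, (ψ g : ℂ) = if g = 1 then (Nat.card G : ℂ) else 0 := by
  letI : CommGroup G := { (inferInstance : Group G) with mul_comm := hcomm }
  rcases eq_or_ne g 1 with rfl | hg
  · simp only [map_one, Units.val_one, Finset.sum_const, nsmul_eq_mul, mul_one, if_true]
    rw [Finset.card_univ, ← Nat.card_eq_fintype_card,
      CommGroup.card_monoidHom_of_hasEnoughRootsOfUnity]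
  rw [if_neg hg]
  obtain ⟨φ, hφ⟩ := CommGroup.exists_apply_ne_one_of_hasEnoughRootsOfUnity G ℂ hg
  refine sum_hom_units_eq_zero
    { toFun := fun ψ : G →* ℂˣ => (ψ g : ℂ), map_one' := rfl,
      map_mul' := fun a b => by rw [MonoidHom.mul_apply, Units.val_mul] } fun h => hφ ?_
  exact Units.ext (DFunLike.congr_fun h φ)

/-- **The indicator through the characters.** -/
theorem sum_dualW_mul (hcomm : ∀ g h : G, g * h = h * g) [Fintype (G →* ℂˣ)] (C : Set G) (h : G) :
    ∑ ψ : G →* ℂˣ, dualW C ψ * (ψ h : ℂ) = if h ∈ C then 1 else 0 := by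
  have hc : (Nat.card G : ℂ) ≠ 0 := Nat.cast_ne_zero.2 Nat.card_pos.ne'
  calc ∑ ψ : G →* ℂˣ, dualW C ψ * (ψ h : ℂ)
      = (Nat.card G : ℂ)⁻¹ * ∑ g ∈ C.toFinset, ∑ ψ : G →* ℂˣ, (ψ (g⁻¹ * h) : ℂ) := by
        rw [Finset.sum_comm, Finset.mul_sum]
        refine Finset.sum_congr rfl fun ψ _ => ?_
        rw [dualW, dualSum, mul_assoc, Finset.sum_mul]
        simp only [map_mul, Units.val_mul]
    _ = (Nat.card G : ℂ)⁻¹ * ∑ g ∈ C.toFinset, if g = h then (Nat.card G : ℂ) else 0 := by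
        refine congrArg _ (Finset.sum_congr rfl fun g _ => ?_)
        rw [sum_dual_apply hcomm]
        simp only [inv_mul_eq_one]
    _ = _ := by
        rw [Finset.sum_ite_eq' C.toFinset h fun _ => (Nat.card G : ℂ)]
        simp only [Set.mem_toFinset]
        split_ifs
        · rw [inv_mul_cancel₀ hc]
        · rw [mul_zero]

end dual

variable {K : Type u} {L : Type v} [Field K] [NumberField K] [Field L] [NumberField L]
  [Algebra K L] [IsGalois K L] (hcomm : ∀ g h : L ≃ₐ[K] L, g * h = h * g)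

/-- The term of a character. -/
theorem LSeries_linear_eq (ψ : (L ≃ₐ[K] L) →* ℂˣ) {s : ℂ} (hs : 1 < s.re) :
    LSeries (artinMangoldt fun σ => (ψ σ : ℂ)) s =
      -(deriv (clearedL hcomm ψ) s / clearedL hcomm ψ s) +
        (if ψ = 1 then 1 else 0) * (s - 1)⁻¹ := by
  set φ : (L ≃ₐ[K] L) → ℂ := fun σ => (ψ σ : ℂ)
  set k := poleOrd ψ
  have hexp : ∀ z : ℂ, 1 < z.re →
      clearedL hcomm ψ z = (z - 1) ^ k * Complex.exp (artinLog φ z) := fun z hz =>
    ((isCleared_clearedL hcomm ψ).series z hz).trans rfl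
  have hd := (FA.ChebError.hasDerivAt_artinLog φ hs).2
  have hs1 : s - 1 ≠ 0 := FA.PrimeIdeal.sub_one_ne_zero hs
  have heq : logDeriv (clearedL hcomm ψ) s =
      logDeriv (fun z => (z - 1) ^ k * Complex.exp (artinLog φ z)) s := by
    refine (logDeriv_congr_nhds ?_).eq_of_nhds
    filter_upwards [(isOpen_lt continuous_const Complex.continuous_re).mem_nhds hs] with z hz
    exact hexp z hz
  have hsub : logDeriv (fun z : ℂ => z - 1) s = (s - 1)⁻¹ := by
    rw [logDeriv_apply, ((hasDerivAt_id' s).sub_const 1).deriv, one_div]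
  rw [logDeriv_mul (f := fun z => (z - 1) ^ k) (g := fun z => Complex.exp (artinLog φ z)) s
      (pow_ne_zero _ hs1) (Complex.exp_ne_zero _) (by fun_prop) hd.cexp.differentiableAt,
    logDeriv_fun_pow (by fun_prop), hsub,
    logDeriv_apply (fun z => Complex.exp (artinLog φ z)), hd.cexp.deriv,
    mul_div_cancel_left₀ _ (Complex.exp_ne_zero _), logDeriv_apply] at heq
  have hk : (k : ℂ) = if ψ = 1 then 1 else 0 := by
    simp only [k, poleOrd]
    split_ifs <;> simp
  rw [← hk]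
  linear_combination heq

section series

variable [Fintype ((L ≃ₐ[K] L) →* ℂˣ)]

/-- The series of `C` less its pole, through the characters. -/
def dualRest (C : Set (L ≃ₐ[K] L)) (s : ℂ) : ℂ :=
  ∑ ψ : (L ≃ₐ[K] L) →* ℂˣ, dualW C ψ * -(deriv (clearedL hcomm ψ) s / clearedL hcomm ψ s)

include hcomm in
/-- **The series of the frequencies through the characters.** -/
theorem LSeries_mangoldtF_dual (C : Set (L ≃ₐ[K] L)) {s : ℂ} (hs : 1 < s.re) :
    LSeriesSummable (fun n => (mangoldtF C n : ℂ)) s ∧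
      LSeries (fun n => (mangoldtF C n : ℂ)) s =
        (share C : ℂ) * (s - 1)⁻¹ + dualRest hcomm C s := by
  set φ : ((L ≃ₐ[K] L) →* ℂˣ) → (L ≃ₐ[K] L) → ℂ := fun ψ σ => (ψ σ : ℂ)
  have hind : indFn C = ∑ ψ : (L ≃ₐ[K] L) →* ℂˣ, dualW C ψ • φ ψ := by
    funext h
    rw [Finset.sum_apply]
    simp only [Pi.smul_apply, smul_eq_mul, φ, sum_dualW_mul hcomm, indFn]
  have hlog : ∀ z : ℂ, 1 < z.re →
      artinLog (indFn C) z = ∑ ψ, dualW C ψ * artinLog (φ ψ) z := fun z hz => by
    have key : ∀ t : Finset ((L ≃ₐ[K] L) →* ℂˣ),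
        artinLog (∑ p ∈ t, dualW C p • φ p) z = ∑ p ∈ t, dualW C p * artinLog (φ p) z := fun t => by
      induction t using Finset.induction_on with
      | empty => simp [artinLog, FA.ArtinL.term, FA.ArtinL.coef, FA.ArtinL.localMean]
      | insert q t hq ih =>
        rw [Finset.sum_insert hq, Finset.sum_insert hq, FA.ArtinL.artinLog_add hz,
          FA.ArtinL.artinLog_smul, ih]
    rw [hind, key]
  have hd : HasDerivAt (artinLog (indFn C))
      (∑ ψ, dualW C ψ * -LSeries (artinMangoldt (φ ψ)) s) s :=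
    (HasDerivAt.fun_sum fun p _ =>
      ((FA.ChebError.hasDerivAt_artinLog (φ p) hs).2.const_mul (dualW C p))).congr_of_eventuallyEq
      (by
        filter_upwards [(isOpen_lt continuous_const Complex.continuous_re).mem_nhds hs] with z hz
        exact hlog z hz)
  obtain ⟨hsum, hd'⟩ := FA.ChebError.hasDerivAt_artinLog (indFn C) hs
  have hval := hd'.unique hd
  have e : (fun n => (mangoldtF C n : ℂ)) = artinMangoldt (indFn C) :=
    funext fun n => (FA.ChebError.artinMangoldt_indFn C n).symm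
  have hres : ∑ ψ, dualW C ψ * (if ψ = 1 then 1 else 0) = (share C : ℂ) := by
    rw [Finset.sum_eq_single (1 : (L ≃ₐ[K] L) →* ℂˣ) (fun ψ _ hne => by rw [if_neg hne, mul_zero])
      fun hn => absurd (Finset.mem_univ _) hn, if_pos rfl, mul_one, dualW, dualSum_one, share]
    push_cast
    rw [inv_mul_eq_div]
  rw [e]
  refine ⟨hsum, ?_⟩
  rw [← neg_neg (LSeries (artinMangoldt (indFn C)) s), hval, ← Finset.sum_neg_distrib,
    Finset.sum_congr rfl fun ψ _ => show -(dualW C ψ * -LSeries (artinMangoldt (φ ψ)) s) =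
      dualW C ψ * (if ψ = 1 then 1 else 0) * (s - 1)⁻¹ +
        dualW C ψ * -(deriv (clearedL hcomm ψ) s / clearedL hcomm ψ s) by
      rw [show LSeries (artinMangoldt (φ ψ)) s = _ from LSeries_linear_eq hcomm ψ hs]
      ring,
    Finset.sum_add_distrib, ← Finset.sum_mul, hres, dualRest]

include hcomm in
/-- **Weighted by the sums, the sizes.** -/
theorem sum_dualW_charSize_le (C : Set (L ≃ₐ[K] L)) {Φ : ℝ} (hΦ0 : 0 ≤ Φ)
    (hΦ : ∀ ψ : (L ≃ₐ[K] L) →* ℂˣ, ψ ≠ 1 → ‖dualSum C ψ‖ ≤ Φ) (t : ℝ) :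
    ∑ ψ, ‖dualW C ψ‖ * charSize ψ t ≤
      share C * height K t + Φ / Nat.card (L ≃ₐ[K] L) * (2 * height L t) := by
  rw [← Finset.add_sum_erase _ _ (Finset.mem_univ (1 : (L ≃ₐ[K] L) →* ℂˣ))]
  refine add_le_add (le_of_eq ?_) ?_
  · rw [norm_dualW, dualSum_one, Complex.norm_natCast, charSize_one, share]
  · calc ∑ ψ ∈ (univ : Finset ((L ≃ₐ[K] L) →* ℂˣ)).erase 1, ‖dualW C ψ‖ * charSize ψ t
        ≤ ∑ ψ ∈ (univ : Finset ((L ≃ₐ[K] L) →* ℂˣ)).erase 1,
            Φ / Nat.card (L ≃ₐ[K] L) * charSize ψ t := by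
          refine Finset.sum_le_sum fun ψ hψ => mul_le_mul_of_nonneg_right ?_
            (zero_le_one.trans (one_le_charSize ψ t))
          rw [norm_dualW]
          exact div_le_div_of_nonneg_right (hΦ ψ (Finset.ne_of_mem_erase hψ)) (Nat.cast_nonneg _)
      _ ≤ ∑ ψ, Φ / Nat.card (L ≃ₐ[K] L) * charSize ψ t :=
          Finset.sum_le_sum_of_subset_of_nonneg (Finset.erase_subset _ _) fun ψ _ _ =>
            mul_nonneg (by positivity) (zero_le_one.trans (one_le_charSize ψ t))
      _ ≤ _ := by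
          rw [← Finset.mul_sum]
          exact mul_le_mul_of_nonneg_left (FA.ChebGRH.sum_charSize_le hcomm t) (by positivity)

variable {E : ℂ → ℂ} (hE : Differentiable ℂ E)
  (hEL : ∀ s : ℂ, 1 < s.re → E s = (s - 1) * dedekindZeta L s) (hRH : FieldRH L)

include hE hEL hRH in
theorem differentiableAt_dualRest (C : Set (L ≃ₐ[K] L)) {s : ℂ} (hs : 1 / 2 < s.re) :
    DifferentiableAt ℂ (dualRest hcomm C) s :=
  DifferentiableAt.fun_sum fun ψ _ => ((((((isCleared_clearedL hcomm ψ).diff.differentiableOn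
    (s := Set.univ)).deriv isOpen_univ).differentiableAt Filter.univ_mem).div
      ((isCleared_clearedL hcomm ψ).diff s)
        (FA.ChebGRH.clearedL_ne_zero_of_half_lt hcomm hE hEL hRH ψ hs)).neg).const_mul _

include hE hEL hRH in
theorem norm_dualRest_le (C : Set (L ≃ₐ[K] L)) {Φ : ℝ} (hΦ0 : 0 ≤ Φ)
    (hΦ : ∀ ψ : (L ≃ₐ[K] L) →* ℂˣ, ψ ≠ 1 → ‖dualSum C ψ‖ ≤ Φ) {δ : ℝ} (hδ : 0 < δ)
    (hδ4 : δ ≤ 1 / 4) {s : ℂ} (h1 : 1 / 2 + 2 * δ ≤ s.re) (h2 : s.re ≤ 2) :
    ‖dualRest hcomm C s‖ ≤ derivC / δ ^ 2 *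
      (share C * height K s.im + Φ / Nat.card (L ≃ₐ[K] L) * (2 * height L s.im)) := by
  refine (norm_sum_le _ _).trans (le_trans ?_ (mul_le_mul_of_nonneg_left
    (sum_dualW_charSize_le hcomm C hΦ0 hΦ s.im) (div_nonneg derivC_nonneg (sq_nonneg _))))
  rw [Finset.mul_sum]
  refine Finset.sum_le_sum fun ψ _ => ?_
  rw [norm_mul, norm_neg]
  exact (mul_le_mul_of_nonneg_left (FA.ChebGRH.norm_logDeriv_clearedL_le hcomm hE hEL hRH ψ hδ hδ4
    h1 h2) (norm_nonneg _)).trans (le_of_eq (by ring))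

end series

/-- **The moment through the characters.** -/
theorem exists_moment_dual : ∃ A, 0 ≤ A ∧ ∀ {K : Type u} {L : Type v} [Field K] [NumberField K]
    [Field L] [NumberField L] [Algebra K L] [IsGalois K L],
    (∀ g h : L ≃ₐ[K] L, g * h = h * g) → FieldRH L →
    ∀ (C : Set (L ≃ₐ[K] L)) {Φ : ℝ}, 0 ≤ Φ →
    (∀ ψ : (L ≃ₐ[K] L) →* ℂˣ, ψ ≠ 1 → ‖dualSum C ψ‖ ≤ Φ) → ∀ x : ℝ, 1 < x →
      |momentSum (mangoldtF C) x - share C * x ^ 2 / 2| ≤
        A * (share C * discScale K + Φ / Nat.card (L ≃ₐ[K] L) * discScale L) * (x * √x) := by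
  obtain ⟨Ck, hCk, hker⟩ := exists_rawKer_piece
  obtain ⟨Cl, hCl, hlin⟩ := exists_rawKer_line
  refine ⟨22 * Ck + 2 * Cl + 1, by positivity,
    fun {K L} _ _ _ _ _ _ hcomm hRH C Φ hΦ0 hΦ x hx => ?_⟩
  haveI := FA.ArtinFE.finite_linear hcomm
  letI := Fintype.ofFinite ((L ≃ₐ[K] L) →* ℂˣ)
  obtain ⟨E, hE, hEL, -⟩ := FA.ZetaDivisibility.exists_zeta_cleared L
  have hs := share_nonneg C
  obtain ⟨q, hq⟩ : ∃ q : ℝ, q = Φ / Nat.card (L ≃ₐ[K] L) := ⟨_, rfl⟩
  have hq0 : 0 ≤ q := by rw [hq]; positivity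
  rw [← hq]
  have h := momentSum_eq_lineInt (f := mangoldtF C) (σ := share C) (D := dualRest hcomm C)
    (B := 6 * derivC * (share C * fieldSize K + q * fieldSize L))
    (fun s hs' => LSeries_mangoldtF_dual hcomm C hs')
    (fun s hs' => differentiableAt_dualRest hcomm hE hEL hRH C hs')
    (fun δ hδ hδ4 u v hu hu2 => by
      refine (norm_dualRest_le hcomm hE hEL hRH C hΦ0 hΦ hδ hδ4 (s := (u : ℂ) + v * I)
        (by simpa using hu) (by simpa using hu2)).trans ?_
      rw [show ((u : ℂ) + v * I).im = v by simp, ← hq]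
      have hK := height_le_rpow (K := K) hδ (by linarith) v
      have hL := height_le_rpow (K := L) hδ (by linarith) v
      have hK0 : 0 ≤ share C * (fieldSize K * (3 / δ) * (1 + |v|) ^ δ) := by
        have := (one_le_fieldSize (K := K)).1
        positivity
      refine (mul_le_mul_of_nonneg_left (show share C * height K v + q * (2 * height L v) ≤
        2 * (share C * (fieldSize K * (3 / δ) * (1 + |v|) ^ δ)) +
          q * (2 * (fieldSize L * (3 / δ) * (1 + |v|) ^ δ)) by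
        linarith [mul_le_mul_of_nonneg_left hK hs, mul_le_mul_of_nonneg_left hL hq0])
        (div_nonneg derivC_nonneg (sq_nonneg δ))).trans (le_of_eq ?_)
      field_simp
      ring)
    hs (δ := 1 / 4) (by norm_num) le_rfl hx
  rw [show (1 / 2 + 2 * (1 / 4) : ℝ) = 1 by norm_num, lineInt] at h
  obtain ⟨P, hP⟩ : ∃ P, P = x * √x := ⟨_, rfl⟩
  have hP1 : 1 ≤ P :=
    hP ▸ one_le_mul_of_one_le_of_one_le hx.le (Real.one_le_sqrt.2 hx.le)
  rw [← hP]
  have hi : ∀ ψ ∈ (univ : Finset ((L ≃ₐ[K] L) →* ℂˣ)),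
      Integrable fun v => dualW C ψ * pieceLine (clearedL hcomm ψ) (rawKer x) 1 v :=
    fun ψ _ => ((hker (criticalPiece_clearedL hcomm hRH ψ) x hx.le).1).const_mul _
  have e : (momentSum (mangoldtF C) x : ℂ) = ((share C * ((x ^ 2 - 1) / 2) : ℝ) : ℂ) +
      (1 / (2 * π)) • (-(∑ ψ, dualW C ψ *
        ∫ v, pieceLine (clearedL hcomm ψ) (rawKer x) 1 v) -
        (share C : ℂ) * ∫ v : ℝ, rawKer x (((1 : ℝ) : ℂ) + v * I)) := by
    rw [h]
    congr 2
    rw [← sum_congr rfl fun p _ => integral_const_mul (dualW C p) _, ← integral_finsetSum _ hi,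
      ← integral_neg, ← integral_const_mul, ← integral_sub (integrable_finsetSum _ hi).fun_neg
        ((hlin x hx.le).1.const_mul _)]
    refine integral_congr_ae (Eventually.of_forall fun v => ?_)
    simp only [restKer, dualRest, rawKer, pieceLine]
    rw [← Finset.sum_neg_distrib, sub_div, Finset.sum_div, mul_sub, Finset.mul_sum]
    congr 1
    · exact Finset.sum_congr rfl fun p _ => by ring
    · ring
  obtain ⟨hK1, -, -, hKH⟩ := scale_bounds K
  obtain ⟨hL1, -, -, hLH⟩ := scale_bounds L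
  rw [← Real.norm_eq_abs, ← Complex.norm_real, ofReal_sub, e,
    show ((share C * ((x ^ 2 - 1) / 2) : ℝ) : ℂ) = ((share C * x ^ 2 / 2 : ℝ) : ℂ) -
      ((share C * (1 / 2) : ℝ) : ℂ) by push_cast; ring, add_sub_right_comm, sub_sub_cancel_left]
  refine (norm_add_le _ _).trans ?_
  rw [norm_neg, Complex.norm_real, Real.norm_eq_abs, abs_of_nonneg (by positivity), norm_smul,
    Real.norm_eq_abs, abs_of_nonneg (by positivity)]
  obtain ⟨S, hS⟩ : ∃ S, S = share C * discScale K + q * discScale L := ⟨_, rfl⟩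
  rw [← hS]
  have hC1 : 0 ≤ Ck * P := mul_nonneg hCk (by linarith)
  have h1 : ‖∑ ψ, dualW C ψ * ∫ v, pieceLine (clearedL hcomm ψ) (rawKer x) 1 v‖ ≤
      22 * Ck * S * P := by
    have hψ : ∀ ψ : (L ≃ₐ[K] L) →* ℂˣ,
        ‖dualW C ψ * ∫ v, pieceLine (clearedL hcomm ψ) (rawKer x) 1 v‖ ≤
          Ck * P * (‖dualW C ψ‖ * charSize ψ 0) := fun ψ => by
      rw [norm_mul]
      refine (mul_le_mul_of_nonneg_left (hker (criticalPiece_clearedL hcomm hRH ψ) x hx.le).2
        (norm_nonneg _)).trans (le_of_eq ?_)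
      rw [lineSize_charSize, hP]
      ring
    refine (norm_sum_le _ _).trans ((Finset.sum_le_sum fun ψ _ => hψ ψ).trans ?_)
    rw [← Finset.mul_sum]
    refine (mul_le_mul_of_nonneg_left ((sum_dualW_charSize_le hcomm C hΦ0 hΦ 0).trans ?_)
      hC1).trans (le_of_eq (show Ck * P * (22 * S) = 22 * Ck * S * P by ring))
    rw [← hq, hS]
    linarith [mul_le_mul_of_nonneg_left hKH hs, mul_le_mul_of_nonneg_left hLH hq0,
      mul_nonneg hs (show 0 ≤ discScale K by linarith)]
  have hS0 : share C * 0.69 ≤ S := by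
    rw [hS]
    linarith [mul_le_mul_of_nonneg_left hK1.le hs,
      mul_nonneg hq0 (show 0 ≤ discScale L by linarith)]
  have hSP := mul_le_mul_of_nonneg_right hS0 (show 0 ≤ P by linarith)
  have h2 : share C * (1 / 2) ≤ S * P := le_trans (by nlinarith) hSP
  have h3 : ‖(share C : ℂ) * ∫ v : ℝ, rawKer x (((1 : ℝ) : ℂ) + v * I)‖ ≤ 2 * Cl * (S * P) := by
    rw [norm_mul, Complex.norm_real, Real.norm_eq_abs, abs_of_nonneg hs]
    refine (mul_le_mul_of_nonneg_left (hlin x hx.le).2 hs).trans ?_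
    rw [← hP]
    nlinarith [mul_le_mul_of_nonneg_left hSP hCl]
  have hπ : 1 / (2 * π) ≤ 1 := by
    rw [div_le_one (by positivity)]
    linarith [Real.pi_gt_three]
  refine (add_le_add h2 ((mul_le_of_le_one_left (norm_nonneg _) hπ).trans
    ((norm_sub_le _ _).trans (add_le_add ((norm_neg _).le.trans h1) h3)))).trans (le_of_eq ?_)
  ring

end FA.LTFifths

end
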