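import Fermat.Agent.LangTrotterFifths.Abelian
import Fermat.Agent.FermatCount.Basic

/-!
# The character sums of a line in the torus

For a prime `l` and `t ≠ 0` in `𝔽_l`, the nontrivial characters of `𝔽_lˣ × 𝔽_lˣ` sum to at most
`√l` in absolute value over the pairs `a + b = t`: such a sum is a Jacobi sum.
-/

set_option autoImplicit false
set_option linter.style.haveILetI false

noncomputable section

open Finset
open scoped Classical

namespace FA.LTFifths

variable {l : ℕ} [hl : Fact l.Prime]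

theorem norm_mulChar_unit (a : MulChar (ZMod l) ℂ) {u : ZMod l} (hu : u ≠ 0) : ‖a u‖ = 1 := by
  refine Complex.norm_eq_one_of_pow_eq_one (n := Fintype.card (ZMod l)ˣ) ?_ Fintype.card_ne_zero
  rw [← map_pow, show u = ((Units.mk0 u hu : (ZMod l)ˣ) : ZMod l) from rfl,
    ← Units.val_pow_eq_pow_val, pow_card_eq_one, Units.val_one, map_one]

theorem norm_jacobiSum_le (a b : MulChar (ZMod l) ℂ) (h : a ≠ 1 ∨ b ≠ 1) :
    ‖jacobiSum a b‖ ≤ √(l : ℝ) := by
  have h1 : (1 : ℝ) ≤ √(l : ℝ) := Real.one_le_sqrt.2 (Nat.one_le_cast.2 hl.out.one_le)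
  rcases eq_or_ne a 1 with rfl | ha
  · rw [jacobiSum_one_nontrivial (h.resolve_left fun h' => h' rfl), norm_neg, norm_one]
    exact h1
  rcases eq_or_ne b 1 with rfl | hb
  · rw [jacobiSum_comm, jacobiSum_one_nontrivial ha, norm_neg, norm_one]
    exact h1
  rcases eq_or_ne (a * b) 1 with hab | hab
  · rw [show b = a⁻¹ from eq_inv_of_mul_eq_one_right hab, jacobiSum_nontrivial_inv ha, norm_neg,
      norm_mulChar_unit a (neg_ne_zero.2 one_ne_zero)]
    exact h1
  · rw [FA.FermatCount.norm_jacobiSum ha hb hab, ZMod.card]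

/-- **The sums over the line `a + b = t`.** -/
theorem norm_dualSum_line {t : ZMod l} (ht : t ≠ 0) {χ : (ZMod l)ˣ × (ZMod l)ˣ →* ℂˣ} (hχ : χ ≠ 1) :
    ‖dualSum {x : (ZMod l)ˣ × (ZMod l)ˣ | (x.1 : ZMod l) + x.2 = t} χ‖ ≤ √(l : ℝ) := by
  obtain ⟨a, ha⟩ : ∃ a : MulChar (ZMod l) ℂ,
      a = MulChar.ofUnitHom (χ.comp (MonoidHom.inl _ _))⁻¹ := ⟨_, rfl⟩
  obtain ⟨b, hb⟩ : ∃ b : MulChar (ZMod l) ℂ,
      b = MulChar.ofUnitHom (χ.comp (MonoidHom.inr _ _))⁻¹ := ⟨_, rfl⟩
  have hval : ∀ x : (ZMod l)ˣ × (ZMod l)ˣ, (χ x⁻¹ : ℂ) = a (x.1 : ZMod l) * b (x.2 : ZMod l) :=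
    fun x => by
    rw [ha, hb, MulChar.ofUnitHom_coe, MulChar.ofUnitHom_coe]
    rw [MonoidHom.inv_apply, MonoidHom.inv_apply, MonoidHom.comp_apply, MonoidHom.comp_apply,
      ← Units.val_mul, ← mul_inv, ← map_mul, ← map_inv]
    congr 2
    refine inv_inj.2 (Prod.ext ?_ ?_) <;> simp
  have hab : a ≠ 1 ∨ b ≠ 1 := by
    by_contra h
    push Not at h
    refine hχ (MonoidHom.ext fun x => Units.ext ?_)
    have := hval x⁻¹
    rw [inv_inv, h.1, h.2, MulChar.one_apply_coe, MulChar.one_apply_coe, one_mul] at this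
    rw [this, MonoidHom.one_apply, Units.val_one]
  obtain ⟨C, hCdef⟩ : ∃ C : Set ((ZMod l)ˣ × (ZMod l)ˣ),
      C = {x | (x.1 : ZMod l) + x.2 = t} := ⟨_, rfl⟩
  rw [← hCdef]
  have hmem : ∀ x, x ∈ C.toFinset ↔ (x.1 : ZMod l) + x.2 = t := fun x => by
    rw [Set.mem_toFinset, hCdef, Set.mem_ofPred_eq]
  have hC : dualSum C χ = ∑ u : ZMod l, a u * b (t - u) := by
    rw [dualSum, ← Finset.sum_filter_of_ne (s := (univ : Finset (ZMod l)))
      (p := fun u => u ≠ 0 ∧ t - u ≠ 0) (f := fun u => a u * b (t - u)) fun u _ hu => by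
        constructor <;> intro h <;> exact hu (by simp [h, MulChar.map_zero])]
    refine Finset.sum_bij (fun x _ => (x.1 : ZMod l)) (fun x hx => ?_) (fun x hx y hy e => ?_)
      (fun u hu => ?_) fun x hx => ?_
    · rw [hmem] at hx
      refine mem_filter.2 ⟨mem_univ _, x.1.ne_zero, ?_⟩
      rw [← hx, add_sub_cancel_left]
      exact x.2.ne_zero
    · rw [hmem] at hx
      rw [hmem] at hy
      exact Prod.ext (Units.ext e) (Units.ext (add_left_cancel
        (hx.trans (hy.symm.trans (congrArg (· + _) e.symm)))))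
    · obtain ⟨-, h0, h1⟩ := mem_filter.1 hu
      exact ⟨(Units.mk0 u h0, Units.mk0 (t - u) h1),
        (hmem _).2 (show u + (t - u) = t from add_sub_cancel u t), rfl⟩
    · rw [hmem] at hx
      rw [hval, ← hx, add_sub_cancel_left]
  have hscale : ∑ u : ZMod l, a u * b (t - u) = a t * b t * jacobiSum a b := by
    rw [jacobiSum, Finset.mul_sum, ← Equiv.sum_comp (Equiv.mulLeft₀ t ht)]
    refine Finset.sum_congr rfl fun u _ => ?_
    show a (t * u) * b (t - t * u) = _
    rw [show t - t * u = t * (1 - u) by ring, map_mul, map_mul]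
    ring
  rw [hC, hscale, norm_mul, norm_mul, norm_mulChar_unit a ht, norm_mulChar_unit b ht, one_mul,
    one_mul]
  exact norm_jacobiSum_le a b hab

end FA.LTFifths

end
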