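import Fermat.Agent.LangTrotterFifths.Abelian
import Fermat.Agent.SharpChebotarev.Least
import Fermat.Agent.SharpLangTrotter.Quotient

/-!
# Counting primes through the characters of an abelian quotient of a subgroup

For `ρ : Gal(ℚ̄/ℚ) → G` onto, `H ≤ G`, `φ : H → R` onto an abelian group and `C ⊆ R` whose sums
against the nontrivial characters are at most `Φ`, on the Riemann hypothesis at most
`4 (|C|/|R|) N / log N + O ((|C|/|R| + Φ) [G : H] √N (1 + log |G| + ∑_S log p) / log N) + √N + |S|`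
primes `p ≤ N` have a conjugate of Frobenius in `φ⁻¹ C`: the smoothed sum needs no `log N` in the
error.
-/

set_option autoImplicit false
set_option linter.style.haveILetI false

noncomputable section

open NumberField IsDedekindDomain Module Finset Polynomial
open FA.CyclicRed (AllFieldsRH)
open FA.NaturalChebotarev (someFrobSet)
open FA.Chebotarev (strictFrobSet)
open FA.ChebError (share mangoldtF frobShare mangoldtF_nonneg)
open FA.DedekindPIT (momentSum)
open FA.SharpLangTrotter (natCard_quotient_eq)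
open scoped Classical Pointwise

local notation "Qb" => AlgebraicClosure ℚ
local notation "GQ" => AlgebraicClosure ℚ ≃ₐ[ℚ] AlgebraicClosure ℚ

namespace FA.LTFifths

/-- Discriminants in a tower. -/
theorem finrank_mul_discLog_le (M F : Type*) [Field M] [NumberField M] [Field F] [NumberField F]
    [Algebra M F] :
    (finrank M F : ℝ) * FA.DedekindZeroCount.discLog M ≤ FA.DedekindZeroCount.discLog F := by
  have hdvd := Dvd.intro_left _ (natAbs_discr_eq_absNorm_differentIdeal_mul_natAbs_discr_pow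
    M (𝓞 M) F (𝓞 F)).symm
  rw [FA.DedekindZeroCount.discLog, FA.DedekindZeroCount.discLog, ← Real.log_pow, ← Nat.cast_pow]
  exact Real.log_le_log (Nat.cast_pos.2 (pow_pos (Int.natAbs_pos.2 (discr_ne_zero _)) _))
    (Nat.cast_le.2 (Nat.le_of_dvd (Int.natAbs_pos.2 (discr_ne_zero _)) hdvd))

/-- One unambiguous prime of degree one carries its logarithm. -/
theorem log_le_mangoldtF {K L : Type*} [Field K] [NumberField K] [Field L] [NumberField L]
    [Algebra K L] [IsGalois K L] {C : Set (L ≃ₐ[K] L)} {v : HeightOneSpectrum (𝓞 K)} {p : ℕ}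
    (hv : Ideal.absNorm v.asIdeal = p) (hmem : v ∈ someFrobSet K L C)
    (hgood : v ∉ someFrobSet K L C \ strictFrobSet K L C) :
    Real.log p ≤ mangoldtF C p := by
  have hle := (FA.Hecke.summable_fiberSum
    (w := fun q : HeightOneSpectrum (𝓞 K) × ℕ => frobShare C q.1 (q.2 + 1)) (B := 1)
    (fun q => FA.ChebError.frobShare_nonneg C _ _) (fun q => FA.ChebError.frobShare_le_one C _ _)
    p).le_tsum ⟨(v, 0), by simp [hv]⟩ fun q _ =>
      mul_nonneg (FA.ChebError.frobShare_nonneg C _ _) (Real.log_natCast_nonneg _)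
  refine le_trans (le_of_eq ?_) hle
  show Real.log p = frobShare C v 1 * Real.log ((Ideal.absNorm v.asIdeal : ℕ) : ℝ)
  rw [FA.ChebError.frobShare_eq_ind hgood, if_pos hmem, one_mul, hv]

/-- **The count through the characters of an abelian quotient.** -/
theorem exists_quotient_dual : ∃ A : ℝ, 0 ≤ A ∧
    ∀ {G R : Type} [Group G] [Finite G] [CommGroup R] [Finite R] [Fintype R] (ρ : GQ →* G),
    IsOpen (ρ.ker : Set GQ) → Function.Surjective ρ → AllFieldsRH →
    ∀ S : Finset ℕ, (∀ p ∈ S, p.Prime) →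
    (∀ p : ℕ, p.Prime → p ∉ S → ∀ B : ValuationSubring Qb, B.LiesOverPrime p →
      B.inertiaSubgroupIn ℚ ≤ ρ.ker) →
    ∀ (H : Subgroup G) (φ : H →* R), Function.Surjective φ → ∀ (C : Set R) {Φ : ℝ}, 0 ≤ Φ →
    (∀ χ : R →* ℂˣ, χ ≠ 1 → ‖dualSum C χ‖ ≤ Φ) → ∀ (P : ℕ → Prop),
    (∀ p : ℕ, p.Prime → p ∉ S → P p → ∀ B : ValuationSubring Qb, B.LiesOverPrime p →
      ∀ σ : GQ, B.IsFrobeniusAt σ p → ∃ g : G, ∃ h : g * ρ σ * g⁻¹ ∈ H, φ ⟨_, h⟩ ∈ C) →
    ∀ N : ℕ, 2 ≤ N →
    ((((Icc 1 N).filter fun p => p.Prime ∧ P p).card : ℕ) : ℝ) * Real.log N ≤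
      (√N + S.card) * Real.log N + 4 * ((Nat.card C : ℝ) / Nat.card R) * N +
        A * (((Nat.card C : ℝ) / Nat.card R + Φ) * H.index) *
          (√N * (1 + Real.log (Nat.card G) + ∑ p ∈ S, Real.log p)) := by
  obtain ⟨A, hA, hmom⟩ := exists_moment_dual.{0, 0}
  refine ⟨8 * A, by positivity,
    fun {G R} _ _ _ _ _ ρ hopen hsurj hGRH S hS hun H φ hφsurj C Φ hΦ0 hΦ P hP N hN => ?_⟩
  let F : IntermediateField ℚ Qb := IntermediateField.fixedField ρ.ker
  have hFN : F.fixingSubgroup = ρ.ker :=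
    InfiniteGalois.fixingSubgroup_fixedField ⟨ρ.ker, Subgroup.isClosed_of_isOpen _ hopen⟩
  have hFnorm : F.fixingSubgroup.Normal := hFN.symm ▸ MonoidHom.normal_ker ρ
  have hFgal : IsGalois ℚ F := (InfiniteGalois.normal_iff_isGalois F).mp hFnorm
  haveI : FiniteDimensional ℚ F :=
    (InfiniteGalois.isOpen_iff_finite F).mp (by rw [hFN]; exact hopen)
  haveI : NumberField F := { }
  let res : GQ →* (F ≃ₐ[ℚ] F) := AlgEquiv.restrictNormalHom F
  have hres : res.ker = ρ.ker := (IntermediateField.restrictNormalHom_ker F).trans hFN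
  have hres_surj : Function.Surjective res :=
    AlgEquiv.restrictNormalHom_surjective (F := ℚ) (K₁ := F) Qb
  let e₀ : (F ≃ₐ[ℚ] F) →* G := res.liftOfSurjective hres_surj ⟨ρ, hres.le⟩
  have he₀ : ∀ g : GQ, e₀ (res g) = ρ g :=
    MonoidHom.liftOfRightInverse_comp_apply _ _ _ ⟨ρ, hres.le⟩
  have heb : Function.Bijective e₀ := by
    refine ⟨(injective_iff_map_eq_one e₀).mpr fun z hz => ?_, fun r => ?_⟩
    · obtain ⟨g, rfl⟩ := hres_surj z
      rw [he₀] at hz
      rw [← MonoidHom.mem_ker, hres]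
      exact hz
    · obtain ⟨g, hg⟩ := hsurj r
      exact ⟨res g, (he₀ g).trans hg⟩
  let H₀ : Subgroup (F ≃ₐ[ℚ] F) := H.comap e₀
  let toH : H₀ →* H := (e₀.comp H₀.subtype).codRestrict H fun a => a.2
  have htoH : Function.Surjective toH := fun b => by
    obtain ⟨a, ha⟩ := heb.2 (b : G)
    exact ⟨⟨a, show e₀ a ∈ H from ha.symm ▸ b.2⟩, Subtype.ext ha⟩
  let K : IntermediateField ℚ F := IntermediateField.fixedField H₀
  let e₁ : H₀ ≃* (F ≃ₐ[K] F) := IntermediateField.subgroupEquivAlgEquiv H₀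
  let ψ : (F ≃ₐ[K] F) →* R := (φ.comp toH).comp e₁.symm.toMonoidHom
  have hψs : Function.Surjective ψ := (hφsurj.comp htoH).comp e₁.symm.surjective
  let M : IntermediateField K F := IntermediateField.fixedField ψ.ker
  haveI : IsGalois K M := IsGalois.of_fixedField_normal_subgroup ψ.ker
  let resM : (F ≃ₐ[K] F) →* (M ≃ₐ[K] M) := AlgEquiv.restrictNormalHom M
  have hMs : Function.Surjective resM :=
    AlgEquiv.restrictNormalHom_surjective (F := K) (K₁ := M) F
  have hMker : resM.ker = ψ.ker :=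
    (IntermediateField.restrictNormalHom_ker M).trans
      (IntermediateField.fixingSubgroup_fixedField _)
  let ψ' : (M ≃ₐ[K] M) →* R := resM.liftOfSurjective hMs ⟨ψ, hMker.le⟩
  have hψ' : ∀ g, ψ' (resM g) = ψ g :=
    MonoidHom.liftOfRightInverse_comp_apply _ _ _ ⟨ψ, hMker.le⟩
  have hψb : Function.Bijective ψ' := by
    refine ⟨(injective_iff_map_eq_one ψ').mpr fun z hz => ?_, fun r => ?_⟩
    · obtain ⟨g, rfl⟩ := hMs z
      rw [hψ'] at hz
      rw [← MonoidHom.mem_ker, hMker]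
      exact hz
    · obtain ⟨g, hg⟩ := hψs r
      exact ⟨resM g, (hψ' g).trans hg⟩
  obtain ⟨C', hC'⟩ : ∃ C' : Set (M ≃ₐ[K] M), C' = {g | ψ' g ∈ C} := ⟨_, rfl⟩
  have hC'conj : ∀ g ∈ C', ∀ x, x * g * x⁻¹ ∈ C' := by
    rw [hC']
    intro g hg x
    show ψ' (x * g * x⁻¹) ∈ C
    rw [map_mul, map_mul, map_inv, mul_right_comm, mul_inv_cancel, one_mul]
    exact hg
  have hcC : Nat.card C' = Nat.card C := by
    rw [hC']
    exact Nat.card_congr ((Equiv.ofBijective ψ' hψb).subtypeEquiv fun _ => Iff.rfl)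
  have hcR : Nat.card (M ≃ₐ[K] M) = Nat.card R := Nat.card_congr (Equiv.ofBijective ψ' hψb)
  have hshare : share C' = (Nat.card C : ℝ) / Nat.card R := by rw [share, hcC, hcR]
  have hG : finrank ℚ F = Nat.card G :=
    (IsGalois.card_aut_eq_finrank ℚ F).symm.trans (Nat.card_congr (Equiv.ofBijective e₀ heb))
  have hindex : finrank ℚ K = H.index := by
    have h1 : finrank K F = Nat.card H :=
      (IntermediateField.finrank_fixedField_eq_card H₀).trans
        (Nat.card_congr ((Equiv.ofBijective e₀ heb).subtypeEquiv fun _ => Iff.rfl))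
    have h2 := Module.finrank_mul_finrank ℚ K F
    rw [h1, hG, ← H.card_mul_index, mul_comm] at h2
    exact Nat.eq_of_mul_eq_mul_left Nat.card_pos h2
  have hM : finrank ℚ M = H.index * Nat.card R := by
    rw [← Module.finrank_mul_finrank ℚ K M, hindex, ← IsGalois.card_aut_eq_finrank K M, hcR]
  have hcommM : ∀ g h : M ≃ₐ[K] M, g * h = h * g := fun g h =>
    hψb.1 (by rw [map_mul, map_mul, mul_comm])
  have hfix : ∀ q : ℕ, q.Prime → q ∉ S → ∀ B : ValuationSubring Qb, B.LiesOverPrime q →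
      B.inertiaSubgroupIn ℚ ≤ F.fixingSubgroup := fun q hq hqS B hB => hFN ▸ hun q hq hqS B hB
  have hunr : ∀ (q : ℕ) (Q : Ideal (𝓞 F)) [Q.IsPrime], q.Prime → q ∉ S → (q : 𝓞 F) ∈ Q →
      Algebra.IsUnramifiedAt ℤ Q := fun q Q hQ hq hqS hqQ => by
    haveI : Q.IsMaximal := hQ.isMaximal fun h =>
      Nat.cast_ne_zero.2 hq.ne_zero (Ideal.mem_bot.1 (h ▸ hqQ))
    exact FA.Faltings.isUnramifiedAt_of_inertia_le F hq (hfix q hq hqS) Q hqQ
  have hdiscr := FA.Faltings.natAbs_discr_le (K := F) hS fun q Q _ hq hqS hqQ =>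
    FA.Faltings.isUnramifiedAt_of_inertia_le F hq (hfix q hq hqS) Q hqQ
  obtain ⟨T, hT⟩ : ∃ T, T = ∑ p ∈ S, Real.log (p : ℝ) := ⟨_, rfl⟩
  obtain ⟨B₀, hB₀⟩ : ∃ B₀ : ℝ, B₀ = Real.log (Nat.card G) + T := ⟨_, rfl⟩
  have hB0 : 0 ≤ B₀ := by
    rw [hB₀, hT]
    exact add_nonneg (Real.log_natCast_nonneg _) (sum_nonneg fun p _ => Real.log_natCast_nonneg _)
  have hdF : FA.DedekindZeroCount.discLog F ≤ finrank ℚ F * B₀ := by
    refine (Real.log_le_log (Nat.cast_pos.2 (Int.natAbs_pos.2 (discr_ne_zero _)))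
      (Nat.cast_le.2 hdiscr)).trans (le_of_eq ?_)
    rw [Nat.cast_pow, Real.log_pow, Nat.cast_mul, hG, Real.log_mul
      (Nat.cast_ne_zero.2 (Nat.card_pos (α := G)).ne')
      (Nat.cast_ne_zero.2 (prod_ne_zero_iff.2 fun p hp => (hS p hp).ne_zero)),
      Nat.cast_prod, Real.log_prod fun p hp => Nat.cast_ne_zero.2 (hS p hp).ne_zero, hB₀, hT]
  have hscale : ∀ (E : Type) [Field E] [NumberField E] [Algebra E F],
      FA.DedekindExplicit.discScale E ≤ finrank ℚ E * (1 + B₀) := fun E _ _ _ => by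
    haveI : IsScalarTower ℚ E F := IsScalarTower.of_algebraMap_eq' (Subsingleton.elim _ _)
    have h1 := (finrank_mul_discLog_le E F).trans hdF
    rw [← Module.finrank_mul_finrank ℚ E F, Nat.cast_mul, mul_comm (finrank ℚ E : ℝ),
      mul_assoc] at h1
    have h2 := le_of_mul_le_mul_left h1 (Nat.cast_pos.2 (finrank_pos (R := E) (M := F)))
    have h3 : (1 : ℝ) ≤ finrank ℚ E := Nat.one_le_cast.2 finrank_pos
    rw [FA.DedekindExplicit.discScale_eq]
    linarith [Real.log_two_lt_d9]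
  have hndvd : ∀ p : ℕ, p.Prime → p ∉ S → ¬ p ∣ (discr M).natAbs := fun p hp hpS hd => by
    have hdvd := (dvd_pow_self _ (finrank_pos (R := M) (M := F)).ne').trans (Dvd.intro_left _
      (natAbs_discr_eq_absNorm_differentIdeal_mul_natAbs_discr_pow M (𝓞 M) F (𝓞 F)).symm)
    exact (NumberField.not_dvd_discr_iff_forall_mem F (𝓞 F) (Nat.prime_iff_prime_int.1 hp)).2
      (fun Q hQ hpQ => @hunr p Q hQ hp hpS (by simpa using hpQ))
      (Int.natCast_dvd.2 (hd.trans hdvd))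
  have hN2 : (2 : ℝ) ≤ N := by exact_mod_cast hN
  obtain ⟨e, he⟩ : ∃ e : (M ≃ₐ[K] M) ≃* R, e = MulEquiv.ofBijective ψ' hψb := ⟨_, rfl⟩
  have hΦ' : ∀ χ : (M ≃ₐ[K] M) →* ℂˣ, χ ≠ 1 → ‖dualSum C' χ‖ ≤ Φ := fun χ hχ => by
    have h := hΦ (χ.comp e.symm.toMonoidHom) fun h => hχ (MonoidHom.ext fun x => by
      have := DFunLike.congr_fun h (e x)
      simpa using this)
    refine le_trans (le_of_eq (congrArg _ ?_)) h
    refine Finset.sum_nbij' e e.symm (fun x hx => ?_) (fun x hx => ?_) (fun x _ => by simp)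
      (fun x _ => by simp) fun x _ => ?_
    · simpa [he, hC'] using hx
    · have h1 : ψ' (e.symm x) = x := by
        rw [he]
        exact (MulEquiv.ofBijective ψ' hψb).apply_symm_apply x
      simpa [hC', h1] using hx
    · simp
  have h1 := (abs_le.1 (hmom (K := K) (L := M) hcommM (hGRH M) C' hΦ0 hΦ' (2 * (N : ℝ))
    (by linarith))).2
  rw [hshare, hcR] at h1
  have hpt : ∀ p ∈ ((Icc 1 N).filter fun p => p.Prime ∧ P p), p ∉ S →
      Real.log p ≤ mangoldtF C' p := fun p hpU hpS => by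
    obtain ⟨hpN, hp, hPp⟩ := mem_filter.1 hpU
    obtain ⟨B, hB⟩ := FA.Deform.exists_liesOverPrime hp
    obtain ⟨σ, hσ⟩ := FA.Deform.exists_isFrobeniusAt hp hB
    obtain ⟨g, hg, hgC⟩ := hP p hp hpS hPp B hB σ hσ
    obtain ⟨P₀, hP₀⟩ := FA.Chebotarev.exists_isFrobPair_restrict (F := F) hp
      (fun Q' hQ' hpQ' τ' hτ' => by
        haveI := hQ'
        obtain ⟨B', hB', σ', hσ', hστ⟩ := FA.Ext.exists_inertia_lift F Q' hp hpQ' τ' hτ'
        refine AlgEquiv.ext fun y => Subtype.ext ?_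
        rw [← hστ y]
        exact hfix p hp hpS B' hB' hσ' y) hB hσ
    obtain ⟨x, hx⟩ := heb.2 g
    obtain ⟨τ, hτ⟩ : ∃ τ, τ = x * res σ * x⁻¹ := ⟨_, rfl⟩
    have hPr : FA.Density.IsFrobPair p (x • P₀) τ := hτ ▸ hP₀.conj x
    obtain ⟨Pr, hPrdef⟩ : ∃ Pr, Pr = x • P₀ := ⟨_, rfl⟩
    rw [← hPrdef] at hPr
    have heτ : e₀ τ = g * ρ σ * g⁻¹ := by rw [hτ, map_mul, map_mul, map_inv, he₀, hx]
    have hτH : τ ∈ H₀ := show e₀ τ ∈ H from heτ ▸ hg
    haveI : Pr.IsMaximal := hPr.isMaximal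
    haveI : Pr.IsPrime := hPr.isMaximal.isPrime
    have hp0 : (p : 𝓞 K) ≠ 0 := Nat.cast_ne_zero.2 hp.ne_zero
    have hpv : (p : 𝓞 K) ∈ Pr.under (𝓞 K) := by
      rw [Ideal.mem_comap, map_natCast]
      exact hPr.mem
    obtain ⟨v, hv⟩ : ∃ v : HeightOneSpectrum (𝓞 K), v.asIdeal = Pr.under (𝓞 K) :=
      ⟨⟨Pr.under (𝓞 K), Ideal.IsPrime.comap _,
        fun h => hp0 (Ideal.mem_bot.1 (le_of_eq h hpv))⟩, rfl⟩
    obtain ⟨τK, hτK⟩ : ∃ τK, τK = e₁ ⟨τ, hτH⟩ := ⟨_, rfl⟩
    have hfr : ∀ y : 𝓞 F, τK • y - y ^ p ∈ Pr := fun y => by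
      have : τK • y = τ • y := by rw [hτK]; rfl
      rw [this]
      exact hPr.frob y
    have hcard : Nat.card (𝓞 K ⧸ v.asIdeal) = p :=
      natCard_quotient_eq v hp (hv ▸ hpv) fun y => by
        rw [hv, Ideal.mem_comap, map_sub, map_pow]
        have h := hfr (algebraMap (𝓞 K) (𝓞 F) y)
        rwa [show τK • algebraMap (𝓞 K) (𝓞 F) y = algebraMap (𝓞 K) (𝓞 F) y from
          RingOfIntegers.ext (τK.commutes (y : K))] at h
    have hfrK : IsArithFrobAt (𝓞 K) τK Pr := fun y => by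
      have h := hfr y
      rw [← hcard, hv] at h
      exact h
    have hfrM := FA.Chebotarev.isArithFrobAt_restrict M hfrK
    have hv' : Ideal.absNorm v.asIdeal = p := by
      rw [Ideal.absNorm_apply, Submodule.cardQuot_apply, hcard]
    have hmem : v ∈ someFrobSet K M C' := by
      refine ⟨Pr.under (𝓞 M), Ideal.IsMaximal.under _ _, ?_, resM τK, ?_, hfrM⟩
      · rw [hv, Ideal.under_under]
      · rw [hC', Set.mem_ofPred_eq, hψ']
        have hval : ψ τK = φ ⟨g * ρ σ * g⁻¹, hg⟩ := by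
          show φ (toH (e₁.symm τK)) = _
          rw [hτK, MulEquiv.symm_apply_apply]
          exact congrArg φ (Subtype.ext heτ)
        rw [hval]
        exact hgC
    refine log_le_mangoldtF hv' hmem fun hbad => hbad.2 ?_
    exact FA.EffCheb.goodFrobSet_subset_strict hC'conj
      ⟨hmem, FA.SharpCheb.notMem_discSet (hv'.symm ▸ hp) (hv'.symm ▸ hndvd p hp hpS)⟩
  obtain ⟨U, hU⟩ : ∃ U, U = (Icc 1 N).filter fun p => p.Prime ∧ P p := ⟨_, rfl⟩
  rw [← hU] at hpt ⊢
  obtain ⟨W, hW⟩ : ∃ W, W = U.filter fun p => Nat.sqrt N < p ∧ p ∉ S := ⟨_, rfl⟩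
  have hWN : ∀ p ∈ W, 1 ≤ p ∧ p ≤ N := fun p hp => by
    rw [hW, mem_filter, hU, mem_filter] at hp
    exact mem_Icc.1 hp.1.1
  have hcard : (U.card : ℝ) ≤ W.card + √(N : ℝ) + S.card := by
    have h : U.card ≤ W.card + Nat.sqrt N + S.card := by
      refine (card_le_card (t := W ∪ Icc 1 (Nat.sqrt N) ∪ S) fun p hp => ?_).trans
        ((card_union_le _ _).trans (Nat.add_le_add_right ((card_union_le _ _).trans
          (Nat.add_le_add_left (le_of_eq (by simp)) _)) _))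
      rw [mem_union, mem_union, mem_Icc]
      by_cases hs : p ∈ S
      · exact Or.inr hs
      by_cases hq : Nat.sqrt N < p
      · exact Or.inl (Or.inl (hW ▸ mem_filter.2 ⟨hp, hq, hs⟩))
      rw [hU, mem_filter, mem_Icc] at hp
      exact Or.inl (Or.inr ⟨hp.1.1, not_lt.1 hq⟩)
    refine (Nat.cast_le.2 h).trans ?_
    push_cast
    gcongr
    exact Real.nat_sqrt_le_real_sqrt
  have hlow : (W.card : ℝ) * (Real.log N / 2 * N) ≤ momentSum (mangoldtF C') (2 * (N : ℝ)) := by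
    rw [← nsmul_eq_mul, ← Finset.sum_const, momentSum]
    refine (sum_le_sum fun p hp => ?_).trans (sum_le_sum_of_subset_of_nonneg
      (s := W) (fun p hp => ?_) fun n hn _ => ?_)
    · have hpN : (p : ℝ) ≤ N := Nat.cast_le.2 (hWN p hp).2
      rw [hW, mem_filter] at hp
      refine mul_le_mul (le_trans ?_ (hpt p hp.1 hp.2.2)) (by linarith) (Nat.cast_nonneg _)
        (mangoldtF_nonneg C' p)
      rw [← Real.log_sqrt (Nat.cast_nonneg _)]
      refine Real.log_le_log (Real.sqrt_pos.2 (by linarith)) ?_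
      rw [Real.sqrt_le_left (Nat.cast_nonneg _)]
      exact_mod_cast (Nat.sqrt_lt'.1 hp.2.1).le
    · exact mem_Icc.2 ⟨(hWN p hp).1, Nat.le_floor (by
        linarith [(Nat.cast_le (α := ℝ)).2 (hWN p hp).2])⟩
    · exact mul_nonneg (mangoldtF_nonneg C' n)
        (sub_nonneg.2 ((Nat.cast_le.2 (mem_Icc.1 hn).2).trans (Nat.floor_le (by linarith))))
  obtain ⟨c, hc⟩ : ∃ c : ℝ, c = (Nat.card C : ℝ) / Nat.card R := ⟨_, rfl⟩
  have hc0 : 0 ≤ c := by rw [hc]; positivity
  rw [← hc] at h1 ⊢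
  have hR0 : (0 : ℝ) < Nat.card R := Nat.cast_pos.2 Nat.card_pos
  have hX : c * FA.DedekindExplicit.discScale K +
      Φ / Nat.card R * FA.DedekindExplicit.discScale M ≤ (c + Φ) * H.index * (1 + B₀) := by
    refine (add_le_add (mul_le_mul_of_nonneg_left (hscale K) hc0)
      (mul_le_mul_of_nonneg_left (hscale M) (by positivity))).trans (le_of_eq ?_)
    rw [hindex, hM, Nat.cast_mul]
    field_simp
  have hsq : √(2 * (N : ℝ)) ≤ 2 * √(N : ℝ) := by
    rw [Real.sqrt_mul two_pos.le]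
    refine mul_le_mul_of_nonneg_right ?_ (Real.sqrt_nonneg _)
    rw [Real.sqrt_le_left two_pos.le]
    norm_num
  have hXB : 0 ≤ A * ((c + Φ) * H.index * (1 + B₀)) := by positivity
  have h2 : (W.card : ℝ) * (Real.log N / 2 * N) ≤ (N : ℝ) *
      (2 * c * N + A * ((c + Φ) * H.index * (1 + B₀)) * (4 * √(N : ℝ))) := by
    refine hlow.trans ((sub_le_iff_le_add.1 h1).trans ?_)
    have h3 := mul_le_mul (mul_le_mul_of_nonneg_left hX hA)
      (mul_le_mul_of_nonneg_left hsq (show (0 : ℝ) ≤ 2 * N by linarith)) (by positivity) hXB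
    linarith
  have h4 : (W.card : ℝ) * (Real.log N / 2) ≤
      2 * c * N + A * ((c + Φ) * H.index * (1 + B₀)) * (4 * √(N : ℝ)) :=
    le_of_mul_le_mul_right (by linarith) (show (0 : ℝ) < N by linarith)
  have h5 := mul_le_mul_of_nonneg_right hcard (Real.log_natCast_nonneg N)
  rw [hB₀, hT] at h4
  linarith

end FA.LTFifths

end
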