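import Fermat.Agent.LangTrotterFifths.CharSum
import Fermat.Agent.LangTrotterFifths.Count
import Fermat.Agent.SharpLangTrotter.Borel

/-!
# One level

At a prime `l ≤ N` with surjective image the good `p ≤ N` with `a_p ≡ t` and `t² - 4 p` a square
number `O (N / (l log N) + l ^ κ √N) + O (1)`, `κ = 3/2` for `t` prime to `l` and `κ = 1` for
`t = 0`.
-/

set_option autoImplicit false
set_option linter.style.haveILetI false

noncomputable section

open Matrix Finset WeierstrassCurve FA.Frob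
open FA.CyclicRed (AllFieldsRH badPrimes)
open FA.TraceDist (glLevel)
open FA.SharpLangTrotter (borel diagHom ratioHom borel_index_le diagHom_surjective
  ratioHom_surjective exists_conj_borel borelCount)
open scoped Classical WeierstrassCurve.Affine

local notation "Qb" => AlgebraicClosure ℚ
local notation "GQ" => AlgebraicClosure ℚ ≃ₐ[ℚ] AlgebraicClosure ℚ

namespace FA.LTFifths

/-- **The count at one level.** -/
theorem exists_level_dual : ∃ A : ℝ, 0 ≤ A ∧
    ∀ (W : WeierstrassCurve ℤ) [(ratCurve W).IsElliptic], W.Δ ≠ 0 → AllFieldsRH →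
    ∀ (l : ℕ) [Fact l.Prime], l ≠ 2 → Function.Surjective (glLevel W l) → ∀ (t : ℤ) (N : ℕ),
    2 ≤ N → l ≤ N → ∀ κ : ℝ, (κ = 3 / 2 ∧ (t : ZMod l) ≠ 0) ∨ (κ = 1 ∧ t = 0) →
    ((borelCount W t l N).card : ℝ) ≤ 16 / (l : ℝ) * ((N : ℝ) / Real.log N) +
      A * (1 + ∑ p ∈ badPrimes W, Real.log p) * ((l : ℝ) ^ κ * √N) +
      ((badPrimes W).card + 1) := by
  obtain ⟨A, hA, hmain⟩ := exists_quotient_dual
  refine ⟨60 * A + 1, by positivity, fun W _ hΔ hGRH l _ hl2 hsurj t N hN hlN κ hκ => ?_⟩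
  have hlp : l.Prime := Fact.out
  haveI : NeZero l := ⟨hlp.ne_zero⟩
  obtain ⟨S, hS⟩ : ∃ S, S = insert l (badPrimes W) := ⟨_, rfl⟩
  have hSp : ∀ p ∈ S, p.Prime := fun p hp => by
    rw [hS, Finset.mem_insert] at hp
    rcases hp with rfl | hp
    exacts [hlp, FA.CyclicRed.prime_of_mem_badPrimes W hp]
  have hSl : ∀ p : ℕ, p.Prime → p ∉ S → ¬ p ∣ l ∧ p ∉ badPrimes W := fun p hp hpS => by
    rw [hS, Finset.mem_insert, not_or] at hpS
    exact ⟨fun hd => hpS.1 ((Nat.prime_dvd_prime_iff_eq hp hlp).1 hd), hpS.2⟩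
  have hun : ∀ p : ℕ, p.Prime → p ∉ S → ∀ B : ValuationSubring Qb, B.LiesOverPrime p →
      B.inertiaSubgroupIn ℚ ≤ (glLevel W l).ker := fun p hp hpS B hB =>
    FA.CyclicRed.inertia_le_ker_glLevel W hp
      (FA.CyclicRed.good_of_not_mem hΔ hp (hSl p hp hpS).2).2 (hSl p hp hpS).1 hB
  have hconj : ∀ p : ℕ, p.Prime → p ∉ S → (p ∉ badPrimes W ∧ (W.apOfModel p : ZMod l) = t ∧
      IsSquare ((t : ZMod l) ^ 2 - 4 * (p : ZMod l))) → ∀ B : ValuationSubring Qb,
      B.LiesOverPrime p → ∀ σ : GQ, B.IsFrobeniusAt σ p →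
      ∃ g, ∃ h : g * glLevel W l σ * g⁻¹ ∈ borel l,
        ((diagHom l ⟨_, h⟩).1 : ZMod l) + (diagHom l ⟨_, h⟩).2 = t :=
      fun p hp hpS ⟨hb, ht, hsq⟩ B hB σ hσ => by
    obtain ⟨htr, hdet⟩ := FA.TraceDist.repLevel_frobenius (W := W) (N := l) hp (hSl p hp hpS).1
      (FA.CyclicRed.good_of_not_mem hΔ hp hb).2 hB hσ
    exact exists_conj_borel hl2 _ _ (htr.trans ht) (by
      rw [show ((glLevel W l σ :
        GL (Fin 2) (ZMod l)) : Matrix (Fin 2) (Fin 2) (ZMod l)).det = (p : ZMod l) from hdet]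
      exact hsq)
  have hl3 : (3 : ℝ) ≤ l := by
    have := hlp.two_le
    exact_mod_cast (show 3 ≤ l by omega)
  have hlN' : (l : ℝ) ≤ N := Nat.cast_le.2 hlN
  have hℓ : 0.69 ≤ Real.log N :=
    le_trans (by linarith [Real.log_two_gt_d9]) (Real.log_le_log two_pos (by exact_mod_cast hN))
  have hu : Nat.card (ZMod l)ˣ = l - 1 := by rw [Nat.card_eq_fintype_card, ZMod.card_units]
  have hl1 : ((l - 1 : ℕ) : ℝ) = (l : ℝ) - 1 := by rw [Nat.cast_sub hlp.one_le, Nat.cast_one]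
  have hidx : ((borel l).index : ℝ) ≤ 2 * l := by
    have h : ((borel l).index : ℝ) ≤ l + 1 := by exact_mod_cast borel_index_le
    linarith
  obtain ⟨T, hT⟩ : ∃ T, T = ∑ p ∈ badPrimes W, Real.log (p : ℝ) := ⟨_, rfl⟩
  have hT0 : 0 ≤ T := hT ▸ sum_nonneg fun p _ => Real.log_natCast_nonneg p
  rw [← hT]
  have hU : 1 + Real.log (Nat.card (GL (Fin 2) (ZMod l))) + ∑ p ∈ S, Real.log (p : ℝ) ≤
      10 * (1 + T) * Real.log N := by
    have h4 : Real.log (Nat.card (GL (Fin 2) (ZMod l))) ≤ 4 * Real.log l := by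
      refine (Real.log_le_log (Nat.cast_pos.2 Nat.card_pos)
        (Nat.cast_le.2 (FA.CyclicRed.natCard_gl_le l))).trans (le_of_eq ?_)
      rw [Nat.cast_pow, Real.log_pow]
      norm_num
    have h5 : ∑ p ∈ S, Real.log (p : ℝ) ≤ Real.log l + T := by
      rw [hT, hS]
      by_cases h : l ∈ badPrimes W
      · rw [Finset.insert_eq_of_mem h]
        linarith [Real.log_natCast_nonneg l]
      · rw [Finset.sum_insert h]
    have h6 : Real.log (l : ℝ) ≤ Real.log N := Real.log_le_log (by linarith) hlN'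
    have := mul_le_mul_of_nonneg_left hℓ (show 0 ≤ 1 + T by linarith)
    have := mul_le_mul_of_nonneg_left hℓ hT0
    nlinarith
  have hcardS : (S.card : ℝ) ≤ (badPrimes W).card + 1 := by
    rw [hS]
    exact_mod_cast Finset.card_insert_le _ _
  have hlκ : (1 : ℝ) ≤ (l : ℝ) ^ κ := Real.one_le_rpow (by linarith) (by
    rcases hκ with ⟨rfl, -⟩ | ⟨rfl, -⟩ <;> norm_num)
  suffices h : ∃ c n : ℝ, 0 ≤ n ∧ c ≤ 4 / (l : ℝ) ∧ n ≤ 6 * (l : ℝ) ^ κ ∧
      ((borelCount W t l N).card : ℝ) * Real.log N ≤ (√(N : ℝ) + S.card) * Real.log N +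
        4 * c * N + A * n * (√(N : ℝ) * (1 + Real.log (Nat.card (GL (Fin 2) (ZMod l))) +
          ∑ p ∈ S, Real.log (p : ℝ))) by
    obtain ⟨c, n, hn0, hc, hn, hbd⟩ := h
    refine le_of_mul_le_mul_right (hbd.trans ?_) (show 0 < Real.log (N : ℝ) by linarith)
    have h1 : 4 * c * N ≤ 16 / (l : ℝ) * ((N : ℝ) / Real.log N) * Real.log N := by
      rw [mul_assoc (16 / (l : ℝ)), div_mul_cancel₀ _ (show Real.log (N : ℝ) ≠ 0 by linarith)]
      refine mul_le_mul_of_nonneg_right ?_ (Nat.cast_nonneg _)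
      rw [show (16 : ℝ) / l = 4 * (4 / l) by ring]
      linarith
    have h2 : A * n * (√(N : ℝ) * (1 + Real.log (Nat.card (GL (Fin 2) (ZMod l))) +
        ∑ p ∈ S, Real.log (p : ℝ))) ≤
        A * (6 * (l : ℝ) ^ κ) * (√(N : ℝ) * (10 * (1 + T) * Real.log N)) :=
      mul_le_mul (mul_le_mul_of_nonneg_left hn hA)
        (mul_le_mul_of_nonneg_left hU (Real.sqrt_nonneg _))
        (mul_nonneg (Real.sqrt_nonneg _) (add_nonneg (add_nonneg zero_le_one
          (Real.log_natCast_nonneg _)) (sum_nonneg fun p _ => Real.log_natCast_nonneg p)))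
        (by positivity)
    have h3 : √(N : ℝ) * Real.log N ≤ (1 + T) * ((l : ℝ) ^ κ * √(N : ℝ)) * Real.log N := by
      refine mul_le_mul_of_nonneg_right ?_ (by linarith)
      refine le_trans ?_ (le_mul_of_one_le_left (by positivity) (by linarith))
      exact le_mul_of_one_le_left (Real.sqrt_nonneg _) hlκ
    have h4 := mul_le_mul_of_nonneg_right hcardS (show 0 ≤ Real.log (N : ℝ) by linarith)
    linarith
  rw [borelCount]
  rcases hκ with ⟨rfl, ht⟩ | ⟨rfl, rfl⟩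
  · obtain ⟨C, hC⟩ : ∃ C : Set ((ZMod l)ˣ × (ZMod l)ˣ),
        C = {x | (x.1 : ZMod l) + x.2 = t} := ⟨_, rfl⟩
    have hmem : ∀ x : (ZMod l)ˣ × (ZMod l)ˣ, x ∈ C ↔ (x.1 : ZMod l) + x.2 = t := fun x => by
      rw [hC]
      rfl
    have hcC : (Nat.card C : ℝ) ≤ l := by
      have h := Nat.card_le_card_of_injective (fun x : C => ((x.1.1 : (ZMod l)ˣ) : ZMod l))
        fun x y e => Subtype.ext (Prod.ext (Units.ext e) (Units.ext (add_left_cancel
          (((hmem _).1 x.2).trans (((hmem _).1 y.2).symm.trans (congrArg (· + _) e.symm))))))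
      rw [Nat.card_zmod] at h
      exact_mod_cast h
    have h := hmain (glLevel W l) FA.TraceDist.isOpen_ker_glLevel hsurj hGRH S hSp hun (borel l)
      (diagHom l) diagHom_surjective C (Real.sqrt_nonneg (l : ℝ))
      (fun χ hχ => hC ▸ norm_dualSum_line ht hχ)
      (fun p => p ∉ badPrimes W ∧ (W.apOfModel p : ZMod l) = t ∧
        IsSquare ((t : ZMod l) ^ 2 - 4 * (p : ZMod l))) (fun p hp hpS hP B hB σ hσ => by
        obtain ⟨g, h, hg⟩ := hconj p hp hpS hP B hB σ hσ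
        exact ⟨g, h, (hmem _).2 hg⟩) N hN
    obtain ⟨c, hc⟩ : ∃ c : ℝ, c = (Nat.card C : ℝ) / Nat.card ((ZMod l)ˣ × (ZMod l)ˣ) := ⟨_, rfl⟩
    have hc4 : c ≤ 4 / (l : ℝ) := by
      rw [hc, Nat.card_prod, hu, Nat.cast_mul, hl1, div_le_div_iff₀ (by nlinarith) (by linarith)]
      nlinarith [mul_le_mul_of_nonneg_right hcC (show (0 : ℝ) ≤ l by linarith)]
    have hc0 : 0 ≤ c := by rw [hc]; positivity
    rw [← hc] at h
    refine ⟨c, (c + √(l : ℝ)) * (borel l).index, by positivity, hc4, ?_, by convert h⟩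
    have h1 : c ≤ 2 * √(l : ℝ) := hc4.trans (((div_le_iff₀ (by linarith)).2
      (by linarith : (4 : ℝ) ≤ 2 * l)).trans (le_mul_of_one_le_right two_pos.le
        (Real.one_le_sqrt.2 (by linarith))))
    refine (mul_le_mul (show c + √(l : ℝ) ≤ 3 * √(l : ℝ) by linarith) hidx (Nat.cast_nonneg _)
      (by positivity)).trans (le_of_eq ?_)
    rw [show (3 / 2 : ℝ) = 1 / 2 + 1 by norm_num, Real.rpow_add_one (by linarith),
      ← Real.sqrt_eq_rpow]
    ring
  · have hnorm : ∀ χ : (ZMod l)ˣ →* ℂˣ, χ ≠ 1 → ‖dualSum ({-1} : Set (ZMod l)ˣ) χ‖ ≤ 1 :=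
      fun χ _ => by
      rw [dualSum, Set.toFinset_singleton, Finset.sum_singleton]
      refine le_of_eq (Complex.norm_eq_one_of_pow_eq_one (n := Fintype.card (ZMod l)ˣ) ?_
        Fintype.card_ne_zero)
      rw [← Units.val_pow_eq_pow_val, ← map_pow, pow_card_eq_one, map_one, Units.val_one]
    have h := hmain (glLevel W l) FA.TraceDist.isOpen_ker_glLevel hsurj hGRH S hSp hun (borel l)
      (ratioHom l) ratioHom_surjective {-1} zero_le_one hnorm (fun p => p ∉ badPrimes W ∧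
        (W.apOfModel p : ZMod l) = ((0 : ℤ) : ZMod l) ∧
        IsSquare ((((0 : ℤ) : ZMod l)) ^ 2 - 4 * (p : ZMod l))) (fun p hp hpS hP B hB σ hσ => by
        obtain ⟨g, h, hg⟩ := hconj p hp hpS hP B hB σ hσ
        refine ⟨g, h, Set.mem_singleton_iff.2 (Units.ext ?_)⟩
        rw [Int.cast_zero, add_eq_zero_iff_eq_neg] at hg
        rw [ratioHom, MonoidHom.div_apply, Units.val_div_eq_div_val, Units.val_neg, Units.val_one,
          MonoidHom.comp_apply, MonoidHom.comp_apply, MonoidHom.coe_fst, MonoidHom.coe_snd, hg,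
          neg_div, div_self (Units.ne_zero _)]) N hN
    obtain ⟨c, hc⟩ : ∃ c : ℝ,
        c = (Nat.card ({-1} : Set (ZMod l)ˣ) : ℝ) / Nat.card (ZMod l)ˣ := ⟨_, rfl⟩
    have hc4 : c ≤ 4 / (l : ℝ) := by
      rw [hc, Nat.card_unique, Nat.cast_one, hu, hl1,
        div_le_div_iff₀ (by linarith) (by linarith)]
      linarith
    have hc0 : 0 ≤ c := by rw [hc]; positivity
    rw [← hc] at h
    refine ⟨c, (c + 1) * (borel l).index, by positivity, hc4, ?_, by convert h⟩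
    have h1 : c ≤ 2 := hc4.trans ((div_le_iff₀ (by linarith)).2 (by linarith))
    refine (mul_le_mul (show c + 1 ≤ 3 by linarith) hidx (Nat.cast_nonneg _)
      (by positivity)).trans (le_of_eq ?_)
    rw [Real.rpow_one]
    ring

end FA.LTFifths

end
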